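import Mathlib
import Fermat.Prelude.Def_ModularCurve_PeriodHomPair

/-!
# S21 / A4, part 1: a maximum principle on `Γ₀(N) \ ℍ*`

If `Φ : ℍ → ℂ` is holomorphic, `Re Φ` is `Γ₀(N)`-invariant, `Φ ∘ γ - Φ` is constant for all
`γ ∈ Γ₀(N)` and `Φ ∘ δ` has a limit at `i∞` for every `δ ∈ SL(2, ℤ)`, then `Φ` is constant.
-/

set_option autoImplicit false

open UpperHalfPlane CongruenceSubgroup Filter Topology Complex
open scoped MatrixGroups Modular ModularForm Manifold

namespace Fermat.Agent.S21.H19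

/-- If `exp ∘ f` is constant on a preconnected open set on which `f` is differentiable, then `f`
is constant there. -/
theorem eq_of_exp_eq_on {U : Set ℂ} (hU : IsOpen U) (hc : IsPreconnected U) {f : ℂ → ℂ}
    (hd : DifferentiableOn ℂ f U) {a : ℂ} (he : ∀ z ∈ U, cexp (f z) = a)
    {x y : ℂ} (hx : x ∈ U) (hy : y ∈ U) : f x = f y := by
  refine hU.is_const_of_deriv_eq_zero hc hd (fun z hz => ?_) hx hy
  have hfz : DifferentiableAt ℂ f z := (hd z hz).differentiableAt (hU.mem_nhds hz)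
  have h1 : HasDerivAt (fun w => cexp (f w)) (cexp (f z) * deriv f z) z := hfz.hasDerivAt.cexp
  have h2 : (fun w => cexp (f w)) =ᶠ[𝓝 z] fun _ => a := by
    filter_upwards [hU.mem_nhds hz] with w hw using he w hw
  have h3 : HasDerivAt (fun w => cexp (f w)) 0 z := (hasDerivAt_const z a).congr_of_eventuallyEq h2
  have h4 := h1.unique h3
  simpa [Complex.exp_ne_zero] using h4

/-- Maximum principle for the real part on a preconnected open set. -/
theorem eq_of_isMaxOn_re {U : Set ℂ} (hU : IsOpen U) (hc : IsPreconnected U) {f : ℂ → ℂ}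
    (hd : DifferentiableOn ℂ f U) {c : ℂ} (hcU : c ∈ U) (hm : ∀ z ∈ U, (f z).re ≤ (f c).re)
    {z : ℂ} (hz : z ∈ U) : f z = f c := by
  have hd' : DifferentiableOn ℂ (fun w => cexp (f w)) U := hd.cexp
  have hmax : IsMaxOn (norm ∘ fun w => cexp (f w)) U c := by
    intro w hw
    simp only [Function.comp_apply, Complex.norm_exp]
    show Real.exp (f w).re ≤ Real.exp (f c).re
    exact Real.exp_le_exp.mpr (hm w hw)
  have h := Complex.eqOn_of_isPreconnected_of_isMaxOn_norm hc hU hd' hcU hmax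
  exact eq_of_exp_eq_on hU hc hd (a := cexp (f c)) (fun w hw => h hw) hz hcU

/-- Local version: if `Re G` has a local maximum at `c` and `G` is differentiable near `c`, then
`G` is constant near `c`. -/
theorem eventually_eq_of_isLocalMax_re {G : ℂ → ℂ} {c : ℂ}
    (hd : ∀ᶠ q in 𝓝 c, DifferentiableAt ℂ G q) (hm : ∀ᶠ q in 𝓝 c, (G q).re ≤ (G c).re) :
    ∀ᶠ q in 𝓝 c, G q = G c := by
  obtain ⟨r, hr, hball⟩ := Metric.eventually_nhds_iff_ball.mp (hd.and hm)
  refine Metric.eventually_nhds_iff_ball.mpr ⟨r, hr, fun q hq => ?_⟩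
  exact eq_of_isMaxOn_re Metric.isOpen_ball (convex_ball c r).isPreconnected
    (fun w hw => (hball w hw).1.differentiableWithinAt) (Metric.mem_ball_self hr)
    (fun w hw => (hball w hw).2) hq

local notation "I∞" => comap Complex.im atTop

/-- Cusp lemma: a periodic function, holomorphic near `i∞`, tending to `L` at `i∞` with
`Re g ≤ Re L` near `i∞`, is constant near `i∞`. -/
theorem eventually_eq_of_periodic_of_re_le {h : ℝ} (hh : 0 < h) {g : ℂ → ℂ}
    (hg : Function.Periodic g h) (hol : ∀ᶠ z in I∞, DifferentiableAt ℂ g z)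
    {L : ℂ} (hL : Tendsto g I∞ (𝓝 L)) (hre : ∀ᶠ z in I∞, (g z).re ≤ L.re) :
    ∀ᶠ z in I∞, g z = L := by
  have hne : (I∞ : Filter ℂ).NeBot := by
    refine Filter.NeBot.comap_of_surj inferInstance (fun y => ⟨⟨0, y⟩, rfl⟩)
  have h_bd : BoundedAtFilter I∞ g := hL.isBigO_one ℝ
  set G := Function.Periodic.cuspFunction h g with hG
  have hG0 : DifferentiableAt ℂ G 0 :=
    Function.Periodic.differentiableAt_cuspFunction_zero hh hg hol h_bd
  have hGL : G 0 = L :=
    tendsto_nhds_unique (Function.Periodic.tendsto_at_I_inf hh hg hol h_bd) hL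
  have hGd : ∀ᶠ q in 𝓝 (0 : ℂ), DifferentiableAt ℂ G q := by
    have h1 := Function.Periodic.eventually_differentiableAt_cuspFunction_nhds_ne_zero hh hg hol
    have h2 := eventually_nhdsWithin_iff.mp h1
    filter_upwards [h2] with q hq
    by_cases hq0 : q = 0
    · rw [hq0]; exact hG0
    · exact hq hq0
  have hGm : ∀ᶠ q in 𝓝 (0 : ℂ), (G q).re ≤ (G 0).re := by
    have h1 : ∀ᶠ q in 𝓝[≠] (0 : ℂ), (g (Function.Periodic.invQParam h q)).re ≤ L.re :=
      (Function.Periodic.invQParam_tendsto hh).eventually hre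
    have h2 := eventually_nhdsWithin_iff.mp h1
    filter_upwards [h2] with q hq
    by_cases hq0 : q = 0
    · rw [hq0]
    · rw [hGL, hG, Function.Periodic.cuspFunction_eq_of_nonzero _ _ hq0]
      exact hq hq0
  have hconst := eventually_eq_of_isLocalMax_re hGd hGm
  have h3 : ∀ᶠ z in I∞, G (Function.Periodic.qParam h z) = G 0 :=
    ((Function.Periodic.qParam_tendsto hh).mono_right nhdsWithin_le_nhds).eventually hconst
  filter_upwards [h3] with z hz
  rw [← hGL, ← hz, hG, Function.Periodic.eq_cuspFunction hh.ne' hg]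


/-! ### Translates and their periodicity -/

theorem conj_T_pow_mem_Gamma0 (N : ℕ) (δ : SL(2, ℤ)) :
    δ * ModularGroup.T ^ (N : ℤ) * δ⁻¹ ∈ Gamma0 N := by
  have h1 : ModularGroup.T ^ (N : ℤ) ∈ CongruenceSubgroup.Gamma N := by
    simpa using ModularGroup_T_pow_mem_Gamma (N : ℤ) (N : ℤ) dvd_rfl
  have h2 := (Gamma_normal N).conj_mem _ h1 δ
  exact Gamma0_mem.mpr (Gamma_mem.mp h2).2.2.1

theorem tendsto_vadd_atImInfty (x : ℝ) :
    Tendsto (fun w : ℍ => (x +ᵥ w : ℍ)) atImInfty atImInfty := by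
  simp only [atImInfty, tendsto_comap_iff, Function.comp_def, vadd_im]
  exact tendsto_comap

theorem mdiff_translate {Φ : ℍ → ℂ} (hol : MDiff Φ) (δ : SL(2, ℤ)) :
    MDiff (fun w : ℍ => Φ (δ • w)) := by
  have h1 : MDiff (Φ ∣[(0 : ℤ)] (δ : GL (Fin 2) ℝ)) := hol.slash 0 _
  have h2 : (Φ ∣[(0 : ℤ)] (δ : GL (Fin 2) ℝ)) = fun w : ℍ => Φ (δ • w) := by
    funext w
    rw [← ModularForm.SL_slash, ModularForm.SL_slash_apply]
    simp
  rwa [h2] at h1

section translate

variable {N : ℕ} {Φ : ℍ → ℂ}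

/-- Translates of `Φ` by elements of `SL(2, ℤ)` are `N`-periodic: the period of the parabolic
element `δ T^N δ⁻¹` is `L - L = 0`. -/
theorem translate_vadd (hper : ∀ γ ∈ Gamma0 N, ∃ c : ℂ, ∀ z : ℍ, Φ (γ • z) - Φ z = c)
    (hlim : ∀ δ : SL(2, ℤ), ∃ L : ℂ, Tendsto (fun w : ℍ => Φ (δ • w)) atImInfty (𝓝 L))
    (δ : SL(2, ℤ)) (w : ℍ) : Φ (δ • ((N : ℝ) +ᵥ w)) = Φ (δ • w) := by
  obtain ⟨c, hc⟩ := hper _ (conj_T_pow_mem_Gamma0 N δ)
  obtain ⟨L, hL⟩ := hlim δ
  have key : ∀ w : ℍ, Φ (δ • ((N : ℝ) +ᵥ w)) - Φ (δ • w) = c := by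
    intro w
    have h := hc (δ • w)
    rw [← mul_smul, inv_mul_cancel_right, mul_smul, modular_T_zpow_smul] at h
    simpa using h
  have h1 : Tendsto (fun w : ℍ => Φ (δ • ((N : ℝ) +ᵥ w)) - Φ (δ • w)) atImInfty (𝓝 (L - L)) :=
    (hL.comp (tendsto_vadd_atImInfty (N : ℝ))).sub hL
  have h2 : Tendsto (fun w : ℍ => Φ (δ • ((N : ℝ) +ᵥ w)) - Φ (δ • w)) atImInfty (𝓝 c) := by
    simp only [key]; exact tendsto_const_nhds
  have h3 : c = L - L := tendsto_nhds_unique h2 h1
  rw [← sub_eq_zero, key, h3, sub_self]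

theorem translate_periodic (hper : ∀ γ ∈ Gamma0 N, ∃ c : ℂ, ∀ z : ℍ, Φ (γ • z) - Φ z = c)
    (hlim : ∀ δ : SL(2, ℤ), ∃ L : ℂ, Tendsto (fun w : ℍ => Φ (δ • w)) atImInfty (𝓝 L))
    (δ : SL(2, ℤ)) : Function.Periodic ((fun w : ℍ => Φ (δ • w)) ∘ ofComplex) (N : ℝ) := by
  intro w
  by_cases hw : 0 < Complex.im w
  · have hw' : 0 < Complex.im (w + (N : ℝ)) := by simpa using hw
    simp only [Function.comp_apply, ofComplex_apply_of_im_pos hw', ofComplex_apply_of_im_pos hw]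
    rw [← translate_vadd hper hlim δ ⟨w, hw⟩]
    congr 2
    ext
    simp [add_comm]
  · have hw0 : Complex.im w ≤ 0 := not_lt.mp hw
    have hw' : Complex.im (w + (N : ℝ)) ≤ 0 := by simpa using hw0
    simp only [Function.comp_apply, ofComplex_apply_eq_of_im_nonpos hw' hw0]

end translate

/-! ### The maximum principle on `Γ₀(N) \ ℍ*` -/

/-- **Maximum principle on the modular curve.** A holomorphic function `Φ` on `ℍ` whose real part
is `Γ₀(N)`-invariant, whose `Γ₀(N)`-differences are constants and whose `SL(2, ℤ)`-translates all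
have limits at `i∞`, is constant. -/
theorem eq_const_of_re_invariant (N : ℕ) [NeZero N] (Φ : ℍ → ℂ) (hol : MDiff Φ)
    (hre : ∀ γ ∈ Gamma0 N, ∀ z : ℍ, (Φ (γ • z)).re = (Φ z).re)
    (hper : ∀ γ ∈ Gamma0 N, ∃ c : ℂ, ∀ z : ℍ, Φ (γ • z) - Φ z = c)
    (hlim : ∀ δ : SL(2, ℤ), ∃ L : ℂ, Tendsto (fun w : ℍ => Φ (δ • w)) atImInfty (𝓝 L)) :
    ∃ c : ℂ, ∀ z : ℍ, Φ z = c := by
  classical
  have hUo : IsOpen {z : ℂ | 0 < z.im} := isOpen_upperHalfPlaneSet
  have hUc : IsPreconnected {z : ℂ | 0 < z.im} := (convex_halfSpace_im_gt 0).isPreconnected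
  -- coset representatives
  have : Finite (SL(2, ℤ) ⧸ Gamma0 N) := inferInstance
  let r : SL(2, ℤ) ⧸ Gamma0 N → SL(2, ℤ) := fun x => (Quotient.out x)⁻¹
  have hL0 := hlim
  choose L hL using hL0
  have hcover : ∀ z : ℍ, ∃ x : SL(2, ℤ) ⧸ Gamma0 N, ∃ w : ℍ, w ∈ 𝒟 ∧
      (Φ z).re = (Φ (r x • w)).re := by
    intro z
    obtain ⟨g, hg⟩ := ModularGroup.exists_smul_mem_fd z
    refine ⟨(g : SL(2, ℤ) ⧸ Gamma0 N), g • z, hg, ?_⟩
    have hmem : (Quotient.out (g : SL(2, ℤ) ⧸ Gamma0 N))⁻¹ * g ∈ Gamma0 N :=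
      QuotientGroup.eq.mp (QuotientGroup.out_eq' (g : SL(2, ℤ) ⧸ Gamma0 N))
    have h := hre _ hmem z
    rw [mul_smul] at h
    exact h.symm
  have hdiff : ∀ δ : SL(2, ℤ), DifferentiableOn ℂ ((fun w : ℍ => Φ (δ • w)) ∘ ofComplex)
      {z : ℂ | 0 < z.im} := fun δ => mdifferentiable_iff.mp (mdiff_translate hol δ)
  obtain ⟨x₀, hx₀⟩ := Finite.exists_max (fun x : SL(2, ℤ) ⧸ Gamma0 N => (L (r x)).re)
  by_cases hcase : ∀ z : ℍ, (Φ z).re ≤ (L (r x₀)).re
  · -- the supremum is approached at the cusp `r x₀ • ∞`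
    set δ := r x₀ with hδ
    set g : ℂ → ℂ := (fun w : ℍ => Φ (δ • w)) ∘ ofComplex with hg
    have hN : (0 : ℝ) < N := by exact_mod_cast Nat.pos_of_ne_zero (NeZero.ne N)
    have hgper : Function.Periodic g (N : ℝ) := translate_periodic hper hlim δ
    have hghol : ∀ᶠ z in comap Complex.im atTop, DifferentiableAt ℂ g z :=
      eventually_of_mem (preimage_mem_comap (Ioi_mem_atTop 0))
        (fun z hz => (hdiff δ z hz).differentiableAt (hUo.mem_nhds hz))
    have hgL : Tendsto g (comap Complex.im atTop) (𝓝 (L δ)) :=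
      (hL δ).comp tendsto_comap_im_ofComplex
    have hgre : ∀ᶠ z in comap Complex.im atTop, (g z).re ≤ (L δ).re :=
      Eventually.of_forall fun z => hcase _
    have hev := eventually_eq_of_periodic_of_re_le hN hgper hghol hgL hgre
    obtain ⟨S, hS, hSsub⟩ := Filter.mem_comap.mp hev
    obtain ⟨A, hA⟩ := Filter.mem_atTop_sets.mp hS
    have hgA : ∀ z : ℂ, A ≤ z.im → g z = L δ := fun z hz => hSsub (hA _ hz)
    set z₀ : ℂ := ((max A 0 + 1 : ℝ) : ℂ) * Complex.I with hz₀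
    have hz₀im : z₀.im = max A 0 + 1 := by simp [hz₀]
    have hz₀U : z₀ ∈ {z : ℂ | 0 < z.im} := by
      show 0 < z₀.im
      rw [hz₀im]; positivity
    have hopen : IsOpen {z : ℂ | A < z.im} := isOpen_lt continuous_const Complex.continuous_im
    have hz₀A : z₀ ∈ {z : ℂ | A < z.im} := by
      show A < z₀.im
      rw [hz₀im]
      have := le_max_left A 0
      linarith
    have hevz : g =ᶠ[𝓝 z₀] fun _ => L δ := by
      filter_upwards [hopen.mem_nhds hz₀A] with z hz using hgA z (le_of_lt hz)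
    have hgan : AnalyticOnNhd ℂ g {z : ℂ | 0 < z.im} := (hdiff δ).analyticOnNhd hUo
    have hEq := hgan.eqOn_of_preconnected_of_eventuallyEq analyticOnNhd_const hUc hz₀U hevz
    refine ⟨L δ, fun z => ?_⟩
    have h1 := hEq (δ⁻¹ • z).im_pos
    simp only [hg, Function.comp_apply, ofComplex_apply] at h1
    rwa [smul_inv_smul] at h1
  · -- the supremum is attained in `ℍ`
    obtain ⟨z₁, hz₁'⟩ := not_forall.mp hcase
    have hz₁ : (L (r x₀)).re < (Φ z₁).re := not_le.mp hz₁'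
    have hAex : ∀ x : SL(2, ℤ) ⧸ Gamma0 N, ∃ A : ℝ, ∀ w : ℍ, A ≤ w.im →
        (Φ (r x • w)).re < (Φ z₁).re := by
      intro x
      have h1 : Tendsto (fun w : ℍ => (Φ (r x • w)).re) atImInfty (𝓝 (L (r x)).re) :=
        (Complex.continuous_re.tendsto _).comp (hL (r x))
      have h2 : ∀ᶠ w in atImInfty, (Φ (r x • w)).re < (Φ z₁).re :=
        h1.eventually_lt_const (lt_of_le_of_lt (hx₀ x) hz₁)
      exact (atImInfty_mem _).mp h2
    choose A hA using hAex
    obtain ⟨B, hB⟩ := (Set.finite_range A).bddAbove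
    have hB' : ∀ x, A x ≤ max B 1 := fun x => le_trans (hB ⟨x, rfl⟩) (le_max_left _ _)
    set R : Set ℂ := Set.Icc (-(1 / 2 : ℝ)) (1 / 2) ×ℂ Set.Icc (1 / 2 : ℝ) (max B 1) with hR
    have hRc : IsCompact R := isCompact_Icc.reProdIm isCompact_Icc
    have hRU : R ⊆ {z : ℂ | 0 < z.im} := by
      intro z hz
      have := (Complex.mem_reProdIm.mp hz).2.1
      show 0 < z.im
      linarith
    have hRne : R.Nonempty := by
      refine ⟨Complex.I, Complex.mem_reProdIm.mpr ⟨?_, ?_⟩⟩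
      · simp only [Complex.I_re, Set.mem_Icc]; constructor <;> norm_num
      · simp only [Complex.I_im, Set.mem_Icc]; exact ⟨by norm_num, le_max_right _ _⟩
    have hcont : ∀ x : SL(2, ℤ) ⧸ Gamma0 N,
        ContinuousOn (fun w : ℂ => (Φ (r x • ofComplex w)).re) R := fun x =>
      Complex.continuous_re.comp_continuousOn ((hdiff (r x)).continuousOn.mono hRU)
    have hmaxex : ∀ x : SL(2, ℤ) ⧸ Gamma0 N, ∃ w ∈ R,
        IsMaxOn (fun w : ℂ => (Φ (r x • ofComplex w)).re) R w := fun x =>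
      hRc.exists_isMaxOn hRne (hcont x)
    choose wm hwmR hwmax using hmaxex
    obtain ⟨x₁, hx₁⟩ := Finite.exists_max
      (fun x : SL(2, ℤ) ⧸ Gamma0 N => (Φ (r x • ofComplex (wm x))).re)
    set z₀ : ℍ := r x₁ • ofComplex (wm x₁) with hz₀
    have hglob : ∀ z : ℍ, (Φ z).re ≤ max (Φ z₀).re (Φ z₁).re := by
      intro z
      obtain ⟨x, w, hw, hzw⟩ := hcover z
      rw [hzw]
      by_cases hwB : w.im ≤ max B 1
      · have hwR : (w : ℂ) ∈ R := by
          refine Complex.mem_reProdIm.mpr ⟨?_, ?_, hwB⟩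
          · have h2 : |w.re| ≤ 1 / 2 := hw.2
            exact Set.mem_Icc.mpr (abs_le.mp h2)
          · have h3 := ModularGroup.three_le_four_mul_im_sq_of_mem_fd hw
            have h4 : 0 < w.im := w.im_pos
            show (1 / 2 : ℝ) ≤ w.im
            nlinarith
        have h5 : (Φ (r x • ofComplex (w : ℂ))).re ≤ (Φ (r x • ofComplex (wm x))).re :=
          hwmax x hwR
        rw [ofComplex_apply] at h5
        exact le_trans (le_trans h5 (hx₁ x)) (le_max_left _ _)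
      · have h6 : A x ≤ w.im := le_trans (hB' x) (le_of_lt (not_le.mp hwB))
        exact le_trans (le_of_lt (hA x w h6)) (le_max_right _ _)
    obtain ⟨zm, hzm⟩ : ∃ zm : ℍ, ∀ z : ℍ, (Φ z).re ≤ (Φ zm).re := by
      rcases le_total (Φ z₀).re (Φ z₁).re with h | h
      · exact ⟨z₁, fun z => by simpa [max_eq_right h] using hglob z⟩
      · exact ⟨z₀, fun z => by simpa [max_eq_left h] using hglob z⟩
    refine ⟨Φ zm, fun z => ?_⟩
    have hd : DifferentiableOn ℂ (Φ ∘ ofComplex) {z : ℂ | 0 < z.im} := mdifferentiable_iff.mp hol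
    have h7 := eq_of_isMaxOn_re hUo hUc hd (c := (zm : ℂ)) zm.im_pos
      (fun w hw => by
        simp only [Function.comp_apply, ofComplex_apply]
        exact hzm _) (z := (z : ℂ)) z.im_pos
    simpa only [Function.comp_apply, ofComplex_apply] using h7

end Fermat.Agent.S21.H19
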