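import Mathlib
import Fermat.Prelude.Def_ModularCurve_PeriodHomPair
import Fermat.Agent.S21.H19.MaxPrinciple

/-!
# S21 / A4, part 2: injectivity of `periodHomPair`

Given that every weight-2 cusp form on `Γ₀(N)` has an equivariant primitive and that the period
map is linear (package A2), the Eichler–Shimura pair map is injective.
-/

set_option autoImplicit false

open UpperHalfPlane CongruenceSubgroup Filter Topology Complex ModularCurve ModularCurve.Period
open scoped MatrixGroups Modular ModularForm Manifold ComplexConjugate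

namespace Fermat.Agent.S21.H19

/-! ### The reflection `z ↦ -conj z` and `jConjSL` -/

theorem J_smul_SL_smul (γ : SL(2, ℤ)) (z : ℍ) :
    J • (γ • z) = (jConjSL γ) • (J • z) := by
  show J • ((γ : GL (Fin 2) ℝ) • z) = ((jConjSL γ : SL(2, ℤ)) : GL (Fin 2) ℝ) • (J • z)
  rw [← mul_smul, ← mul_smul]
  congr 1
  ext i j
  fin_cases i <;> fin_cases j <;>
    simp [J, jConjMat, Matrix.mul_apply, Fin.sum_univ_two]

theorem J_smul_im (z : ℍ) : (J • z).im = z.im := by
  have h := coe_J_smul z
  have h2 : ((J • z : ℍ) : ℂ).im = (-conj (z : ℂ)).im := by rw [h]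
  simpa using h2

theorem tendsto_J_smul_atImInfty : Tendsto (fun w : ℍ => J • w) atImInfty atImInfty := by
  simp only [atImInfty, tendsto_comap_iff, Function.comp_def, J_smul_im]
  exact tendsto_comap

/-- The "conjugate" of a function on `ℍ`: `z ↦ conj (F (-conj z))`. -/
noncomputable def conjFun (F : ℍ → ℂ) : ℍ → ℂ := fun z => conj (F (J • z))

theorem conjFun_apply (F : ℍ → ℂ) (z : ℍ) : conjFun F z = conj (F (J • z)) := rfl

theorem mdiff_conjFun {F : ℍ → ℂ} (hF : MDiff F) : MDiff (conjFun F) := by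
  have h1 : MDiff (F ∣[(0 : ℤ)] J) := hF.slash 0 J
  have h2 : (F ∣[(0 : ℤ)] J) = conjFun F := by
    funext w
    rw [ModularForm.slash_apply]
    simp [conjFun]
  rwa [h2] at h1


/-! ### The core: a symmetry of the periods forces `f = 0` -/

section core

variable {N : ℕ} {F : ℍ → ℂ}

theorem conjFun_sub (hF : IsEquivariantPrimitive (Gamma0 N) F) (γ : Gamma0 N) (z : ℍ) :
    conjFun F ((γ : SL(2, ℤ)) • z) - conjFun F z = conj (hF.period (jConjGamma0 N γ)) := by
  have h := hF.sub_eq_period (jConjGamma0 N γ) (J • z)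
  rw [jConjGamma0_coe] at h
  rw [conjFun_apply, conjFun_apply, J_smul_SL_smul, ← map_sub, h]

theorem conjFun_tendsto {δ : SL(2, ℤ)} {L : ℂ}
    (hL : Tendsto (fun w : ℍ => F (jConjSL δ • w)) atImInfty (𝓝 L)) :
    Tendsto (fun w : ℍ => conjFun F (δ • w)) atImInfty (𝓝 (conj L)) := by
  have h1 : Tendsto (fun w : ℍ => F (jConjSL δ • (J • w))) atImInfty (𝓝 L) :=
    hL.comp tendsto_J_smul_atImInfty
  have h2 := (Complex.continuous_conj.tendsto L).comp h1
  refine h2.congr (fun w => ?_)
  simp only [Function.comp_apply, conjFun_apply, J_smul_SL_smul]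

/-- The combinations `a F + b F^c` satisfy the hypotheses of the maximum principle, as soon as
their real parts are invariant. -/
theorem comb_eq_const [NeZero N] (hFd : MDiff F) (hF : IsEquivariantPrimitive (Gamma0 N) F)
    (hlim : ∀ δ : SL(2, ℤ), ∃ L : ℂ, Tendsto (fun w : ℍ => F (δ • w)) atImInfty (𝓝 L))
    (a b : ℂ)
    (hre : ∀ γ : Gamma0 N, (a * hF.period γ + b * conj (hF.period (jConjGamma0 N γ))).re = 0) :
    ∃ c : ℂ, ∀ z : ℍ, a * F z + b * conjFun F z = c := by
  have hdiff : ∀ γ : Gamma0 N, ∀ z : ℍ,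
      (a * F ((γ : SL(2, ℤ)) • z) + b * conjFun F ((γ : SL(2, ℤ)) • z))
        - (a * F z + b * conjFun F z)
        = a * hF.period γ + b * conj (hF.period (jConjGamma0 N γ)) := by
    intro γ z
    rw [← conjFun_sub hF γ z, ← hF.sub_eq_period γ z]
    ring
  refine eq_const_of_re_invariant N (fun z => a * F z + b * conjFun F z) ?_ ?_ ?_ ?_
  · rw [UpperHalfPlane.mdifferentiable_iff]
    have h1 := UpperHalfPlane.mdifferentiable_iff.mp hFd
    have h2 := UpperHalfPlane.mdifferentiable_iff.mp (mdiff_conjFun hFd)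
    exact (h1.const_mul a).add (h2.const_mul b)
  · intro γ hγ z
    have h1 := hdiff ⟨γ, hγ⟩ z
    have h2 := hre ⟨γ, hγ⟩
    have h3 := congrArg Complex.re h1
    rw [h2, Complex.sub_re] at h3
    exact sub_eq_zero.mp h3
  · intro γ hγ
    exact ⟨_, fun z => hdiff ⟨γ, hγ⟩ z⟩
  · intro δ
    obtain ⟨L, hL⟩ := hlim δ
    obtain ⟨L', hL'⟩ := hlim (jConjSL δ)
    exact ⟨a * L + b * conj L', (hL.const_mul a).add ((conjFun_tendsto hL').const_mul b)⟩

end core

/-- If the periods of a primitive `F` of a cusp form `f` satisfy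
`P(γ) + ε P(jγj) = 0` for a real `ε`, then `f = 0`. -/
theorem eq_zero_of_period_symm (N : ℕ) [NeZero N] (f : CuspForm (Gamma0 N) 2) (F : ℍ → ℂ)
    (hF : HasEquivariantPrimitive N f F) (ε : ℝ)
    (h : ∀ γ : Gamma0 N,
      hF.2.2.1.period γ + (ε : ℂ) * hF.2.2.1.period (jConjGamma0 N γ) = 0) : f = 0 := by
  have hderiv := hF.1
  have heqv : IsEquivariantPrimitive (Gamma0 N) F := hF.2.2.1
  have hlim := hF.2.2.2
  have hFd : MDiff F := fun τ =>
    mdifferentiableAt_iff.mpr (hderiv τ).differentiableAt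
  have h' : ∀ γ : Gamma0 N, heqv.period γ + (ε : ℂ) * heqv.period (jConjGamma0 N γ) = 0 := h
  obtain ⟨c₁, hc₁⟩ := comb_eq_const hFd heqv hlim 1 (ε : ℂ) (by
    intro γ
    have h1 := congrArg Complex.re (h' γ)
    simp only [Complex.add_re, Complex.mul_re, Complex.ofReal_re, Complex.ofReal_im, zero_mul,
      sub_zero, Complex.zero_re] at h1
    simp only [Complex.add_re, Complex.mul_re, Complex.ofReal_re, Complex.ofReal_im, zero_mul,
      sub_zero, one_mul, Complex.conj_re]
    linarith)
  obtain ⟨c₂, hc₂⟩ := comb_eq_const hFd heqv hlim (-Complex.I) (Complex.I * (ε : ℂ)) (by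
    intro γ
    have h1 := congrArg Complex.im (h' γ)
    simp only [Complex.add_im, Complex.mul_im, Complex.ofReal_re, Complex.ofReal_im, zero_mul,
      add_zero, Complex.zero_im] at h1
    simp only [Complex.add_re, Complex.mul_re, Complex.mul_im, Complex.ofReal_re,
      Complex.ofReal_im, Complex.neg_re, Complex.neg_im, Complex.I_re, Complex.I_im,
      Complex.conj_re, Complex.conj_im]
    linarith)
  have hconst : ∀ z : ℍ, F z = (c₁ + Complex.I * c₂) / 2 := by
    intro z
    have e1 := hc₁ z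
    have e2 := hc₂ z
    have hI : Complex.I * Complex.I = -1 := Complex.I_mul_I
    rw [eq_div_iff (two_ne_zero)]
    linear_combination e1 + Complex.I * e2 + (F z - (ε : ℂ) * conjFun F z) * hI
  have hfun : F ∘ ofComplex = fun _ => (c₁ + Complex.I * c₂) / 2 := by
    funext w
    exact hconst _
  ext τ
  have h1 := hderiv τ
  rw [hfun] at h1
  have h2 := h1.unique (hasDerivAt_const (τ : ℂ) ((c₁ + Complex.I * c₂) / 2))
  simpa using h2

/-! ### Injectivity of the pair map -/

/-- **S21 / A4.** If every weight-2 cusp form on `Γ₀(N)` has an equivariant primitive and the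
period map is linear, then `periodHomPair N` is injective. -/
theorem periodHomPair_injective (N : ℕ) [NeZero N]
    (hex : ∀ f : CuspForm (Gamma0 N) 2, ∃ F : ℍ → ℂ, HasEquivariantPrimitive N f F)
    (hlin : ExistsPeriodMapLinear N) : Function.Injective (periodHomPair N) := by
  obtain ⟨pml, hpml, heq⟩ := periodHomPair_def N hlin
  rw [heq, ← LinearMap.ker_eq_bot, LinearMap.ker_eq_bot']
  rintro ⟨f, g⟩ hfg
  -- pointwise form of the hypothesis
  have hpt : ∀ γ : Gamma0 N,
      pml f (Additive.ofMul γ) + pml f (Additive.ofMul (jConjGamma0 N γ))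
        + (pml g (Additive.ofMul γ) - pml g (Additive.ofMul (jConjGamma0 N γ))) = 0 := by
    intro γ
    have h1 := DFunLike.congr_fun hfg (Additive.ofMul γ)
    simpa [LinearMap.coprod_apply] using h1
  have hf : ∀ γ : Gamma0 N,
      pml f (Additive.ofMul γ) + pml f (Additive.ofMul (jConjGamma0 N γ)) = 0 := by
    intro γ
    have h1 := hpt γ
    have h2 := hpt (jConjGamma0 N γ)
    rw [jConjGamma0_jConjGamma0] at h2
    linear_combination (1 / 2 : ℂ) * h1 + (1 / 2 : ℂ) * h2
  have hg : ∀ γ : Gamma0 N,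
      pml g (Additive.ofMul γ) - pml g (Additive.ofMul (jConjGamma0 N γ)) = 0 := by
    intro γ
    have h1 := hpt γ
    have h2 := hpt (jConjGamma0 N γ)
    rw [jConjGamma0_jConjGamma0] at h2
    linear_combination (1 / 2 : ℂ) * h1 - (1 / 2 : ℂ) * h2
  have hf0 : f = 0 := by
    obtain ⟨F, hF⟩ := hex f
    obtain ⟨F₀, h₀, hP⟩ := periodMap_def N f hF
    refine eq_zero_of_period_symm N f F₀ h₀ 1 (fun γ => ?_)
    have h1 := hf γ
    rw [hpml, hP] at h1
    simpa using h1
  have hg0 : g = 0 := by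
    obtain ⟨G, hG⟩ := hex g
    obtain ⟨G₀, h₀, hP⟩ := periodMap_def N g hG
    refine eq_zero_of_period_symm N g G₀ h₀ (-1) (fun γ => ?_)
    have h1 := hg γ
    rw [hpml, hP] at h1
    simp only [IsEquivariantPrimitive.periodHom_apply] at h1
    push_cast
    linear_combination h1
  rw [hf0, hg0]
  rfl

end Fermat.Agent.S21.H19
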